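import Fermat.Agent.FirstOrderZeroOne.Extension
import Mathlib.Analysis.SpecificLimits.Normed
import Mathlib.Data.Fintype.BigOperators
import Mathlib.Algebra.BigOperators.Field

/-!
# Counting structures on `N` labelled points

The proportion of structures failing an extension axiom is exponentially small.
-/

set_option autoImplicit false

universe u v

namespace FA.FirstOrderZeroOne

open FirstOrder Language Structure Filter Topology Asymptotics

variable (L : Language.{u, v})

/-- The entries of the tables of a structure on `N` points. -/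
abbrev TableEntry (N : ℕ) : Type v :=
  Σ p : (Σ r, L.Relations r), Fin p.1 → Fin N

/-- A structure on `N` labelled points. -/
abbrev Table (N : ℕ) : Type v :=
  TableEntry L N → Bool

variable {L}

/-- The structure of a table. -/
@[instance_reducible]
def structureOf [L.IsRelational] {N : ℕ} (f : Table L N) : L.Structure (Fin N) where
  funMap := fun g _ => isEmptyElim g
  RelMap := fun R x => f ⟨⟨_, R⟩, x⟩ = true

/-- Every structure on `N` points is that of exactly one table. -/
theorem existsUnique_table [L.IsRelational] {N : ℕ} (S : L.Structure (Fin N)) :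
    ∃! f : Table L N, structureOf f = S := by
  classical
  refine ⟨fun c => decide (@RelMap L (Fin N) S _ c.1.2 c.2), ?_, fun f hf => ?_⟩
  · ext1
    · funext n g
      exact isEmptyElim g
    · funext n R x
      exact propext decide_eq_true_iff
  · subst hf
    funext c
    rw [Bool.eq_iff_iff, decide_eq_true_iff]
    exact Iff.rfl

/-- The proportion of tables with a property. -/
noncomputable def fraction {N : ℕ} (P : Table L N → Prop) : ℝ :=
  Nat.card {f : Table L N // P f} / Nat.card (Table L N)

/-- **The proportion of structures on `N` points satisfying a sentence.** -/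
noncomputable def sentenceFraction [L.IsRelational] (σ : L.Sentence) (N : ℕ) : ℝ :=
  fraction fun f : Table L N => @Sentence.Realize L (Fin N) (structureOf f) σ

theorem fraction_nonneg {N : ℕ} (P : Table L N → Prop) : 0 ≤ fraction P :=
  div_nonneg (Nat.cast_nonneg _) (Nat.cast_nonneg _)

variable [Fintype (Σ r, L.Relations r)]

theorem fraction_mono {N : ℕ} {P Q : Table L N → Prop} (h : ∀ f, P f → Q f) :
    fraction P ≤ fraction Q := by
  refine div_le_div_of_nonneg_right ?_ (Nat.cast_nonneg _)
  exact Nat.cast_le.2 (Nat.card_le_card_of_injective (Subtype.map id h)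
    (Subtype.map_injective _ Function.injective_id))

theorem fraction_not {N : ℕ} (P : Table L N → Prop) :
    fraction (fun f => ¬P f) = 1 - fraction P := by
  classical
  rw [eq_sub_iff_add_eq, fraction, fraction, ← add_div, ← Nat.cast_add,
    add_comm, ← Nat.card_sum, Nat.card_congr (Equiv.sumCompl P), div_self]
  exact_mod_cast Nat.card_pos.ne'

theorem fraction_exists_le {N : ℕ} {ι : Type*} [Fintype ι] (P : ι → Table L N → Prop) :
    fraction (fun f => ∃ i, P i f) ≤ ∑ i, fraction (P i) := by
  simp only [fraction, ← Finset.sum_div]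
  refine div_le_div_of_nonneg_right ?_ (Nat.cast_nonneg _)
  rw [← Nat.cast_sum, Nat.cast_le, ← Nat.card_sigma]
  exact Nat.card_le_card_of_injective (fun f => ⟨f.2.choose, f.1, f.2.choose_spec⟩)
    fun f g h => Subtype.ext (congrArg (fun z : Σ i, {f : Table L N // P i f} => z.2.1) h)

/-- The proportion of functions with a property seen on an injective image. -/
theorem card_comp_injective {C D : Type*} [Fintype C] [Fintype D] {g : D → C}
    (hg : Function.Injective g) (P : (D → Bool) → Prop) :
    (Nat.card {f : C → Bool // P (f ∘ g)} : ℝ) / Nat.card (C → Bool) =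
      Nat.card {h : D → Bool // P h} / Nat.card (D → Bool) := by
  classical
  let e : (C → Bool) ≃ (D → Bool) × ({c // c ∉ Set.range g} → Bool) :=
    (Equiv.piEquivPiSubtypeProd (· ∈ Set.range g) fun _ => Bool).trans
      (Equiv.prodCongr ((Equiv.ofInjective g hg).symm.arrowCongr (Equiv.refl Bool)) (Equiv.refl _))
  have he : ∀ f, (e f).1 = f ∘ g := fun f => funext fun d => by
    simp [e, Equiv.arrowCongr]
  rw [Nat.card_congr ((e.subtypeEquiv (q := fun z => P z.1) fun f => by rw [he]).trans
      (Equiv.prodSubtypeFstEquivSubtypeProd (p := P))), Nat.card_congr e,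
    Nat.card_prod, Nat.card_prod, Nat.cast_mul, Nat.cast_mul, mul_div_mul_right]
  exact_mod_cast Nat.card_pos.ne'

variable [L.IsRelational]

/-- The chance that a new point is of a given kind. -/
theorem fraction_fail (k N : ℕ) (x : Fin k → Fin N) (hx : Function.Injective x)
    (b : NewAtom L k → Bool) :
    fraction (fun f : Table L N => ∀ y, (∀ i, x i ≠ y) → ¬∀ q : NewAtom L k,
        (@RelMap L _ (structureOf f) _ q.1.1.2 (Fin.snoc x y ∘ q.1.2) ↔ b q = true)) =
      (1 - (2 ^ Nat.card (NewAtom L k) : ℝ)⁻¹) ^ (N - k) := by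
  classical
  have : Finite (NewAtom L k) := Subtype.finite
  have : Fintype (NewAtom L k) := Fintype.ofFinite _
  let U := {y : Fin N // ∀ i, x i ≠ y}
  have hU : Nat.card U = N - k := by
    have h : (Finset.univ.filter fun y : Fin N => ∀ i, x i ≠ y) = (Finset.univ.image x)ᶜ := by
      ext y
      simp
    rw [Nat.card_eq_fintype_card, Fintype.card_subtype, h, Finset.card_compl,
      Finset.card_image_of_injective _ hx]
    simp
  let g : U × NewAtom L k → TableEntry L N := fun c => ⟨c.2.1.1, Fin.snoc x c.1.1 ∘ c.2.1.2⟩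
  have hg : Function.Injective g := by
    rintro ⟨⟨y, hy⟩, ⟨⟨p, t⟩, hl⟩⟩ ⟨⟨y', hy'⟩, ⟨⟨p', t'⟩, hl'⟩⟩ h
    obtain ⟨rfl, h2⟩ := Sigma.mk.inj h
    have h2 := eq_of_heq h2
    obtain ⟨j, hj⟩ := hl
    have hyy : y = y' := by
      have hj' := congrFun h2 j
      simp only [Function.comp_apply, show t j = Fin.last k from hj, Fin.snoc_last] at hj'
      generalize t' j = m at hj'
      induction m using Fin.lastCases with
      | last => simpa using hj'
      | cast i => exact absurd (by simpa using hj'.symm) (hy i)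
    subst hyy
    have hs : Function.Injective (Fin.snoc x y : Fin (k + 1) → Fin N) :=
      Fin.snoc_injective_iff.2 ⟨hx, fun ⟨i, hi⟩ => hy i hi⟩
    obtain rfl : t = t' := funext fun i => hs (congrFun h2 i)
    rfl
  have hP : ∀ f : Table L N, (∀ y, (∀ i, x i ≠ y) → ¬∀ q : NewAtom L k,
        (@RelMap L _ (structureOf f) _ q.1.1.2 (Fin.snoc x y ∘ q.1.2) ↔ b q = true)) ↔
      ∀ y : U, (fun q => (f ∘ g) (y, q)) ≠ b := by
    intro f
    constructor
    · intro h y hb
      exact h y.1 y.2 fun q => by rw [← congrFun hb q]; rfl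
    · intro h y hy hb
      exact h ⟨y, hy⟩ (funext fun q => Bool.eq_iff_iff.2 (hb q))
  simp only [fraction, hP]
  rw [card_comp_injective hg fun h => ∀ y : U, (fun q => h (y, q)) ≠ b]
  have hcur : Nat.card {h : U × NewAtom L k → Bool // ∀ y : U, (fun q => h (y, q)) ≠ b} =
      Nat.card (U → {r : NewAtom L k → Bool // r ≠ b}) :=
    Nat.card_congr ((((Equiv.curry U (NewAtom L k) Bool).subtypeEquiv
      (q := fun h : U → NewAtom L k → Bool => ∀ y, h y ≠ b) fun h => Iff.rfl)).trans
      (Equiv.subtypePiEquivPi (p := fun _ r => r ≠ b)))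
  rw [hcur, Nat.card_congr (Equiv.curry U (NewAtom L k) Bool), Nat.card_fun, Nat.card_fun,
    Nat.card_fun, hU]
  have h1 : Nat.card {r : NewAtom L k → Bool // r ≠ b} = 2 ^ Nat.card (NewAtom L k) - 1 := by
    simp [Nat.card_eq_fintype_card, Fintype.card_subtype_compl]
  rw [h1, Nat.card_eq_two_iff.2 ⟨true, false, by decide, by ext a; cases a <;> simp⟩]
  push_cast [Nat.one_le_two_pow]
  rw [← div_pow]
  congr 1
  field_simp

/-- The proportion of structures without the extension property for `k` points. -/
theorem fraction_not_hasExtension_le (k N : ℕ) :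
    fraction (fun f : Table L N => ¬@HasExtension L k (Fin N) (structureOf f)) ≤
      2 ^ Nat.card (NewAtom L k) *
        ((N : ℝ) ^ k * (1 - (2 ^ Nat.card (NewAtom L k) : ℝ)⁻¹) ^ (N - k)) := by
  classical
  have : Finite (NewAtom L k) := Subtype.finite
  have : Fintype (NewAtom L k) := Fintype.ofFinite _
  refine (fraction_mono (Q := fun f : Table L N => ∃ i : {x : Fin k → Fin N // Function.Injective x}
      × (NewAtom L k → Bool), ∀ y, (∀ j, i.1.1 j ≠ y) → ¬∀ q : NewAtom L k,
        (@RelMap L _ (structureOf f) _ q.1.1.2 (Fin.snoc i.1.1 y ∘ q.1.2) ↔ i.2 q = true))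
    fun f hf => ?_).trans ((fraction_exists_le _).trans ?_)
  · simp only [HasExtension] at hf
    push Not at hf
    obtain ⟨x, hx, b, h⟩ := hf
    exact ⟨⟨⟨x, hx⟩, b⟩, fun y hy hall => by
      obtain ⟨q, hq⟩ := h y hy
      have := hall q
      tauto⟩
  · refine (le_of_eq (Finset.sum_congr rfl fun i _ => fraction_fail k N i.1.1 i.1.2 i.2)).trans ?_
    rw [Finset.sum_const, Finset.card_univ, nsmul_eq_mul, Fintype.card_prod, Fintype.card_fun,
      Fintype.card_bool, ← Nat.card_eq_fintype_card (α := NewAtom L k), Nat.cast_mul]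
    push_cast
    rw [mul_comm ((Fintype.card _ : ℕ) : ℝ), mul_assoc]
    refine mul_le_mul_of_nonneg_left (mul_le_mul_of_nonneg_right ?_ ?_) (by positivity)
    · calc ((Fintype.card {x : Fin k → Fin N // Function.Injective x} : ℕ) : ℝ)
          ≤ (Fintype.card (Fin k → Fin N) : ℕ) := Nat.cast_le.2 (Fintype.card_subtype_le _)
        _ = (N : ℝ) ^ k := by simp
    · exact pow_nonneg (sub_nonneg.2 (inv_le_one_of_one_le₀ (one_le_pow₀ one_le_two))) _

/-- **Extension axioms hold with exponentially small exception.** -/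
theorem exists_isBigO_fraction_not_hasExtension (k : ℕ) :
    ∃ ρ : ℝ, 0 < ρ ∧ ρ < 1 ∧
      (fun N : ℕ => fraction fun f : Table L N => ¬@HasExtension L k (Fin N) (structureOf f))
        =O[atTop] fun N => ρ ^ N := by
  set a := Nat.card (NewAtom L k)
  set c : ℝ := 1 - (2 ^ a : ℝ)⁻¹
  have hc0 : 0 ≤ c := sub_nonneg.2 (inv_le_one_of_one_le₀ (one_le_pow₀ one_le_two))
  have hc1 : c < 1 := sub_lt_self _ (by positivity)
  obtain ⟨c', hcc', hc'1⟩ := exists_between hc1
  obtain ⟨ρ, hρ, hρ1⟩ := exists_between hc'1
  have hc'0 : 0 < c' := hc0.trans_lt hcc'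
  refine ⟨ρ, hc'0.trans hρ, hρ1, ?_⟩
  refine (IsBigO.of_bound ((2 : ℝ) ^ a * (c' ^ k)⁻¹) ?_).trans
    (isLittleO_pow_const_mul_const_pow_const_pow_of_norm_lt k
      (r₁ := c') (r₂ := ρ) (by rwa [Real.norm_of_nonneg hc'0.le])).isBigO
  filter_upwards [eventually_ge_atTop k] with N hN
  rw [Real.norm_of_nonneg (fraction_nonneg _), Real.norm_of_nonneg (by positivity)]
  refine (fraction_not_hasExtension_le k N).trans ?_
  have hp : c ^ (N - k) ≤ c' ^ (N - k) := pow_le_pow_left₀ hc0 hcc'.le _
  calc (2 : ℝ) ^ a * ((N : ℝ) ^ k * c ^ (N - k))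
      ≤ (2 : ℝ) ^ a * ((N : ℝ) ^ k * c' ^ (N - k)) := by gcongr
    _ = _ := by
        rw [pow_sub₀ _ hc'0.ne' hN]
        ring

end FA.FirstOrderZeroOne
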