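import Mathlib.ModelTheory.Semantics
import Mathlib.Data.Finset.Sort

/-!
# Extension axioms

In a relational language without nullary symbols, structures in which every tuple of distinct
points extends by a point in every possible way satisfy the same sentences, as soon as they do so
for tuples as long as the sentence needs.
-/

set_option autoImplicit false

universe u v w w'

namespace FA.FirstOrderZeroOne

open FirstOrder Language Structure

variable {L : Language.{u, v}}

/-- The atoms that involve the last of `k + 1` variables. -/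
def NewAtom (L : Language.{u, v}) (k : ℕ) : Type v :=
  {q : Σ p : (Σ r, L.Relations r), Fin p.1 → Fin (k + 1) // Fin.last k ∈ Set.range q.2}

/-- The extension axiom for `k` points. -/
def HasExtension (k : ℕ) (M : Type w) [L.Structure M] : Prop :=
  ∀ x : Fin k → M, Function.Injective x → ∀ b : NewAtom L k → Bool,
    ∃ y : M, (∀ i, x i ≠ y) ∧
      ∀ q : NewAtom L k, (RelMap q.1.1.2 (Fin.snoc x y ∘ q.1.2) ↔ b q = true)

/-- Two tuples of one diagram. -/
def SameDiagram {M : Type w} {N : Type w'} [L.Structure M] [L.Structure N] {n : ℕ}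
    (x : Fin n → M) (y : Fin n → N) : Prop :=
  (∀ i j, x i = x j ↔ y i = y j) ∧
    ∀ (r : ℕ) (R : L.Relations r) (t : Fin r → Fin n), RelMap R (x ∘ t) ↔ RelMap R (y ∘ t)

theorem SameDiagram.symm {M : Type w} {N : Type w'} [L.Structure M] [L.Structure N] {n : ℕ}
    {x : Fin n → M} {y : Fin n → N} (h : SameDiagram (L := L) x y) : SameDiagram (L := L) y x :=
  ⟨fun i j => (h.1 i j).symm, fun r R t => (h.2 r R t).symm⟩

/-- The diagrams of empty tuples agree. -/
theorem sameDiagram_zero [IsEmpty (L.Relations 0)] {M : Type w} {N : Type w'} [L.Structure M]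
    [L.Structure N] (x : Fin 0 → M) (y : Fin 0 → N) : SameDiagram (L := L) x y :=
  ⟨fun i => i.elim0, fun r R t => by
    rcases r with - | r
    · exact isEmptyElim R
    · exact (t 0).elim0⟩

theorem snoc_comp_old {P : Type w} {n r : ℕ} (z : Fin n → P) (d : P) (t : Fin r → Fin (n + 1))
    (t' : Fin r → Fin n) (h : ∀ j, (t' j).castSucc = t j) :
    (Fin.snoc z d : Fin (n + 1) → P) ∘ t = z ∘ t' :=
  funext fun j => by simp only [Function.comp_apply, ← h, Fin.snoc_castSucc]

theorem snoc_comp_self {P : Type w} {n r : ℕ} (z : Fin n → P) (i : Fin n)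
    (t : Fin r → Fin (n + 1)) :
    (Fin.snoc z (z i) : Fin (n + 1) → P) ∘ t = z ∘ fun j => Fin.lastCases i id (t j) :=
  funext fun j => by
    simp only [Function.comp_apply]
    generalize t j = p
    induction p using Fin.lastCases <;> simp

/-- A point added on one side is matched on the other. -/
theorem exists_snoc {M : Type w} {N : Type w'} [L.Structure M] [L.Structure N] {n : ℕ}
    (hN : ∀ k ≤ n, HasExtension (L := L) k N) {x : Fin n → M} {y : Fin n → N}
    (h : SameDiagram (L := L) x y) (a : M) :
    ∃ c : N, SameDiagram (L := L) (Fin.snoc x a : Fin (n + 1) → M) (Fin.snoc y c) := by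
  classical
  obtain ⟨hxy, hrel⟩ := h
  by_cases ha : ∃ i, x i = a
  · obtain ⟨i, rfl⟩ := ha
    refine ⟨y i, ?_, fun r R t => ?_⟩
    · intro p q
      induction p using Fin.lastCases <;> induction q using Fin.lastCases <;> simp [hxy]
    · rw [snoc_comp_self, snoc_comp_self]
      exact hrel _ R _
  · simp only [not_exists] at ha
    let F : Finset (Fin n) := Finset.univ.filter fun i => ∀ j, j < i → x j ≠ x i
    have hrep : ∀ i, ∃ p : Fin F.card, x i = x (F.orderEmbOfFin rfl p) := by
      intro i
      have hne : (Finset.univ.filter fun j => x j = x i).Nonempty := ⟨i, by simp⟩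
      set i₀ := (Finset.univ.filter fun j => x j = x i).min' hne
      have h0 : x i₀ = x i := (Finset.mem_filter.1 (Finset.min'_mem _ hne)).2
      have hmem : i₀ ∈ F := Finset.mem_filter.2 ⟨Finset.mem_univ _, fun j hj hxj =>
        hj.not_ge (Finset.min'_le (Finset.univ.filter fun l => x l = x i) j
          (Finset.mem_filter.2 ⟨Finset.mem_univ _, hxj.trans h0⟩))⟩
      obtain ⟨p, hp⟩ : i₀ ∈ Set.range (F.orderEmbOfFin rfl) := by
        rw [Finset.range_orderEmbOfFin]
        exact hmem
      exact ⟨p, by rw [hp, h0]⟩
    choose ρ hρ using hrep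
    let s : Fin F.card → Fin n := F.orderEmbOfFin rfl
    have hinj : Function.Injective (x ∘ s) := by
      intro p q hpq
      have hp := (Finset.mem_filter.1 (F.orderEmbOfFin_mem rfl p)).2
      have hq := (Finset.mem_filter.1 (F.orderEmbOfFin_mem rfl q)).2
      rcases lt_trichotomy (s p) (s q) with hlt | heq | hgt
      · exact absurd hpq (hq _ hlt)
      · exact (F.orderEmbOfFin rfl).injective heq
      · exact absurd hpq.symm (hp _ hgt)
    have hy : ∀ i, y i = y (s (ρ i)) := fun i => (hxy _ _).1 (hρ i)
    obtain ⟨c, hc, hatom⟩ := hN F.card (by simpa using F.card_le_univ) (y ∘ s)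
      (fun p q hpq => hinj ((hxy _ _).2 hpq))
      fun q => decide (RelMap q.1.1.2 (Fin.snoc (x ∘ s) a ∘ q.1.2))
    have hne : ∀ i, y i ≠ c := fun i => by
      rw [hy i]
      exact hc (ρ i)
    refine ⟨c, ?_, fun r R t => ?_⟩
    · intro p q
      induction p using Fin.lastCases with
      | last =>
        induction q using Fin.lastCases with
        | last => simp
        | cast j => simp [Ne.symm (ha j), Ne.symm (hne j)]
      | cast i =>
        induction q using Fin.lastCases with
        | last => simp [ha i, hne i]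
        | cast j => simp [hxy]
    · let t' : Fin r → Fin (F.card + 1) := fun j =>
        Fin.lastCases (Fin.last _) (fun i => (ρ i).castSucc) (t j)
      have ex : (Fin.snoc x a : Fin (n + 1) → M) ∘ t =
          (Fin.snoc (x ∘ s) a : Fin (F.card + 1) → M) ∘ t' := funext fun j => by
        simp only [Function.comp_apply, t']
        generalize t j = p
        induction p using Fin.lastCases with
        | last => simp
        | cast i => simpa [s] using hρ i
      have ey : (Fin.snoc y c : Fin (n + 1) → N) ∘ t =
          (Fin.snoc (y ∘ s) c : Fin (F.card + 1) → N) ∘ t' := funext fun j => by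
        simp only [Function.comp_apply, t']
        generalize t j = p
        induction p using Fin.lastCases with
        | last => simp
        | cast i => simpa using hy i
      rw [ex, ey]
      by_cases hlast : Fin.last F.card ∈ Set.range t'
      · exact ((hatom ⟨⟨⟨r, R⟩, t'⟩, hlast⟩).trans (by simp)).symm
      · have hval : ∀ j, ∃ p : Fin F.card, p.castSucc = t' j := fun j =>
          Fin.exists_castSucc_eq.2 fun e => hlast ⟨j, e⟩
        choose t'' ht'' using hval
        rw [snoc_comp_old _ _ t' t'' ht'', snoc_comp_old _ _ t' t'' ht'']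
        exact hrel r R (s ∘ t'')

/-- **The extension axioms decide every sentence.** -/
theorem exists_bound [L.IsRelational] {n : ℕ} (φ : L.BoundedFormula Empty n) :
    ∃ K : ℕ, ∀ (M : Type w) (N : Type w) [L.Structure M] [L.Structure N],
      (∀ k < K, HasExtension (L := L) k M) → (∀ k < K, HasExtension (L := L) k N) →
      ∀ (x : Fin n → M) (y : Fin n → N), SameDiagram (L := L) x y →
        ∀ (u : Empty → M) (u' : Empty → N), φ.Realize u x ↔ φ.Realize u' y := by
  have hterm : ∀ {m : ℕ} (t : L.Term (Empty ⊕ Fin m)), ∃ i, t = Term.var (Sum.inr i) := by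
    intro m t
    cases t with
    | var v =>
      rcases v with e | i
      · exact e.elim
      · exact ⟨i, rfl⟩
    | func f _ => exact isEmptyElim f
  induction φ with
  | falsum => exact ⟨0, fun _ _ _ _ _ _ _ _ _ _ _ => Iff.rfl⟩
  | equal t₁ t₂ =>
    obtain ⟨i, rfl⟩ := hterm t₁
    obtain ⟨j, rfl⟩ := hterm t₂
    exact ⟨0, fun _ _ _ _ _ _ x y h _ _ => by simpa [BoundedFormula.Realize] using h.1 i j⟩
  | rel R ts =>
    choose i hi using fun l => hterm (ts l)
    exact ⟨0, fun _ _ _ _ _ _ x y h _ _ => by
      simpa [BoundedFormula.Realize, hi, Function.comp_def] using h.2 _ R i⟩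
  | imp φ ψ ihφ ihψ =>
    obtain ⟨K₁, h₁⟩ := ihφ
    obtain ⟨K₂, h₂⟩ := ihψ
    refine ⟨max K₁ K₂, fun M N _ _ hM hN x y h u u' => imp_congr ?_ ?_⟩
    · exact h₁ M N (fun k hk => hM k (hk.trans_le (le_max_left _ _)))
        (fun k hk => hN k (hk.trans_le (le_max_left _ _))) x y h u u'
    · exact h₂ M N (fun k hk => hM k (hk.trans_le (le_max_right _ _)))
        (fun k hk => hN k (hk.trans_le (le_max_right _ _))) x y h u u'
  | @all m φ ih =>
    obtain ⟨K, hK⟩ := ih
    refine ⟨max K (m + 1), fun M N _ _ hM hN x y h u u' => ?_⟩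
    have hK' := hK M N (fun k hk => hM k (hk.trans_le (le_max_left _ _)))
      (fun k hk => hN k (hk.trans_le (le_max_left _ _)))
    simp only [BoundedFormula.realize_all]
    constructor
    · intro hφ c
      obtain ⟨a, ha⟩ := exists_snoc (fun k hk => hM k (by omega)) h.symm c
      exact (hK' _ _ ha.symm u u').1 (hφ a)
    · intro hφ a
      obtain ⟨c, hc⟩ := exists_snoc (fun k hk => hN k (by omega)) h a
      exact (hK' _ _ hc u u').2 (hφ c)

end FA.FirstOrderZeroOne
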